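/-
Fermat/Agent/T1B/ALP95/Bridge.lean  (helper95, programme T1B, slice ALP)

`ALP90/AL1` (helper20) and `ALP95/AL1` (helper95) were written in parallel; both define `Wp` as
`(Conjugates11.exists_W M p hp hpM).choose`, so they agree by `rfl`.  This file restates the
extra results of `ALP95/AL1` (Gauss normalisability and Galois equivariance of the side-2 expansion)
for the names of `ALP90/AL1`, which is the canonical (AL1).
-/
import Mathlib
import Fermat.Agent.T1B.ALP90.AL1
import Fermat.Agent.T1B.ALP95.AL1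

set_option autoImplicit false
set_option linter.unusedSectionVars false

open ModularCurve IntermediateField

noncomputable section

namespace Fermat.Agent.T1B.ALP95.Bridge

open Fermat.Agent.X0 Fermat.Agent.T1B.Hecke3 Fermat.Agent.T1B.Gauss95

variable (M p : ℕ) [NeZero M] [NeZero p] (hp : p.Prime) (hpM : ¬ p ∣ M)

theorem Wp_eq : Fermat.Agent.T1B.ALP90.AL1.Wp M p hp hpM = Fermat.Agent.T1B.ALP95.Wp M p hp hpM :=
  rfl

theorem alBar_eq :
    Fermat.Agent.T1B.ALP90.AL1.alBar M p hp hpM = Fermat.Agent.T1B.ALP95.alBar M p hp hpM := by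
  ext x
  rfl

/-- `W_p x` is Gauss-normalisable at every valuation subring of `ℚ̄` (names of `ALP90/AL1`). -/
theorem normalisable_Wp (A : ValuationSubring Kbar) (x : FF (M * p)) (h0 : x ≠ 0) :
    Hecke3.Normalisable A (Fermat.Agent.T1B.ALP90.AL1.Wp M p hp hpM x) :=
  Fermat.Agent.T1B.ALP95.normalisable_Wp M p hp hpM A x h0

/-- `W_p` commutes with the coefficientwise Galois action (names of `ALP90/AL1`). -/
theorem Wp_arithmeticRingAut (σ : Kbar ≃ₐ[ℚ] Kbar) (x : FF (M * p)) :
    Fermat.Agent.T1B.ALP90.AL1.Wp M p hp hpM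
        (arithmeticRingAut (modularFunctionFieldFull (M * p)) σ x) =
      coeffMap (σ : Kbar →+* Kbar) (Fermat.Agent.T1B.ALP90.AL1.Wp M p hp hpM x) :=
  Fermat.Agent.T1B.ALP95.Wp_arithmeticRingAut M p hp hpM σ x

/-- `dl` of the side-2 expansion is equivariant for the decomposition group
(names of `ALP90/AL1`). -/
theorem dl_galois_Wp (A : ValuationSubring Kbar) (g : A.decompositionSubgroup ℚ)
    (x : FF (M * p)) (h0 : x ≠ 0) :
    dl A (Fermat.Agent.T1B.ALP90.AL1.Wp M p hp hpM
        (arithmeticRingAut (modularFunctionFieldFull (M * p)) (g : Kbar ≃ₐ[ℚ] Kbar) x)) =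
      galBar g (dl A (Fermat.Agent.T1B.ALP90.AL1.Wp M p hp hpM x)) :=
  Fermat.Agent.T1B.ALP95.dl_galois_Wp M p hp hpM A g x h0

end Fermat.Agent.T1B.ALP95.Bridge
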