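/-
Fermat/Agent/T1B/ALP95/AL1.lean  (helper95, programme T1B, brick F8' HECKE-N, slice ALP (AL1))

THE ATKIN–LEHNER EXPANSION AT `p` of the function field of `X₀(M'p)` over `ℚ̄` (`p ∤ M'` prime):

* `Wp M' p hp hpM : FF (M'*p) →+* ℚ̄((q))` := the `W` of `ES.KRON.Conjugates11.exists_W`, with
  `Wp_beta : Wp (β_p h) = h`, `Wp_alpha : Wp (α_p f) = f(q^p)`, `Wp_const`;
* `Wp_jdF_of_dvd`, `Wp_jdF_mul` : `W_p (x_d) = x_{dp}`, `W_p (x_{dp}) = x_d` (`d ∣ M'`);
* `Wp_mem : Wp x ∈ modularFunctionFieldBar (M'*p)`;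
* `alBar M' p hp hpM : FF (M'*p) ≃ₐ[ℚ̄] FF (M'*p)`, `coe_alBar`, `alBar_alpha`, `alBar_beta`,
  `alBar_alBar` (involution);
* `normalisable_Wp` (Gauss normalisability of `W_p x` at every place of `ℚ̄`);
* `Wp_arithmeticRingAut` : `W_p` commutes with the coefficientwise Galois action; `dl_galois_Wp`.

Exact twin of `ES/N34/FrickeFK8.frickeBar` (Fricke `W_N`), with `W_p` in place of `W_N`.
-/
import Mathlib
import Fermat.Agent.ES.KRON.Conjugates11
import Fermat.Agent.ES.N34.FrickeFK8
import Fermat.Agent.T1B.Gauss95.Main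

set_option autoImplicit false
set_option linter.unusedSectionVars false

open ModularCurve IntermediateField

noncomputable section

namespace Fermat.Agent.T1B.ALP95

open Fermat.Agent.X0 Fermat.Agent.X0.Analytic Fermat.Agent.ES.KRON.Conjugates11
open Fermat.Agent.RED.BASE.Interface12

variable (M' p : ℕ) [NeZero M'] [NeZero p] (hp : p.Prime) (hpM : ¬ p ∣ M')

/-- **The Atkin–Lehner expansion at `p`**: the compressed expansion at the cusp `p / M'`. -/
def Wp : FF (M' * p) →+* LaurentSeries Kbar :=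
  (exists_W M' p hp hpM).choose

theorem Wp_beta (h : FF M') :
    Wp M' p hp hpM (heckeBetaBar Kbar M' p h) = (h : LaurentSeries Kbar) :=
  (exists_W M' p hp hpM).choose_spec.1 h

theorem Wp_alpha (f : FF M') :
    Wp M' p hp hpM (heckeAlphaBar Kbar M' p f) = qExpand Kbar p (f : LaurentSeries Kbar) :=
  (exists_W M' p hp hpM).choose_spec.2 f

theorem Wp_const (c : Kbar) :
    Wp M' p hp hpM (algebraMap Kbar (FF (M' * p)) c) = HahnSeries.C c := by
  have h := Wp_beta M' p hp hpM (algebraMap Kbar (FF M') c)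
  rw [AlgHom.commutes] at h
  rw [h]
  show algebraMap Kbar (LaurentSeries Kbar) c = HahnSeries.C c
  rw [HahnSeries.C_apply]
  exact algebraMap_laurentSeries_eq_single Kbar c

theorem Wp_injective : Function.Injective (Wp M' p hp hpM) := (Wp M' p hp hpM).injective

/-- `W_p (x_d) = x_{dp}` for `d ∣ M'`. -/
theorem Wp_jdF_of_dvd (d : ℕ) [NeZero d] (hd : d ∣ M') (hd' : d ∣ M' * p)
    (hd'' : d * p ∣ M' * p) :
    Wp M' p hp hpM (jdF (M' * p) d hd') =
      ((jdF (M' * p) (d * p) hd'' : FF (M' * p)) : LaurentSeries Kbar) := by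
  rw [← alpha_jdF M' p d hd hd', Wp_alpha, ← coe_heckeBetaBar, beta_jdF M' p d hd hd'']

/-- `W_p (x_{dp}) = x_d` for `d ∣ M'`. -/
theorem Wp_jdF_mul (d : ℕ) [NeZero d] (hd : d ∣ M') (hd' : d ∣ M' * p)
    (hd'' : d * p ∣ M' * p) :
    Wp M' p hp hpM (jdF (M' * p) (d * p) hd'') =
      ((jdF (M' * p) d hd' : FF (M' * p)) : LaurentSeries Kbar) := by
  rw [← beta_jdF M' p d hd hd'', Wp_beta, ← alpha_jdF M' p d hd hd', coe_heckeAlphaBar]

/-- `W_p` as a `ℚ̄`-algebra homomorphism into `ℚ̄((q))`. -/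
def WpAlg : FF (M' * p) →ₐ[Kbar] LaurentSeries Kbar :=
  { Wp M' p hp hpM with
    commutes' := fun c => by
      show Wp M' p hp hpM (algebraMap Kbar (FF (M' * p)) c) = algebraMap Kbar (LaurentSeries Kbar) c
      rw [Wp_const, algebraMap_laurentSeries_eq_single]
      rfl }

@[simp] theorem WpAlg_apply (x : FF (M' * p)) : WpAlg M' p hp hpM x = Wp M' p hp hpM x := rfl

/-- The Atkin–Lehner expansion of an element of `F̄_{M'p}` lies in `F̄_{M'p}` again. -/
theorem Wp_mem (x : FF (M' * p)) : Wp M' p hp hpM x ∈ modularFunctionFieldBar (M' * p) := by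
  have htop : IntermediateField.adjoin Kbar (genSet (M' * p)) ≤
      (modularFunctionFieldBar (M' * p)).comap (WpAlg M' p hp hpM) := by
    rw [IntermediateField.adjoin_le_iff]
    rintro _ ⟨d', hne, hd', rfl⟩
    have := hne
    rw [SetLike.mem_coe, Fermat.Agent.RED.LVL.FrickeExp17.mem_comap_iff, WpAlg_apply]
    rcases dvd_mul_prime_cases M' p hp hd' with hdM | ⟨d, hdM, rfl⟩
    · rw [Wp_jdF_of_dvd M' p hp hpM d' hdM hd' (Nat.mul_dvd_mul_right hdM p)]
      exact (jdF (M' * p) (d' * p) _).2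
    · have hd0 : NeZero d := ⟨fun h0 => NeZero.ne (d * p) (by rw [h0, zero_mul])⟩
      rw [Wp_jdF_mul M' p hp hpM d hdM (Dvd.dvd.mul_right hdM p) hd']
      exact (jdF (M' * p) d _).2
  have hx := htop (FracR.mem_adjoin_genSet (M' * p) x)
  rwa [Fermat.Agent.RED.LVL.FrickeExp17.mem_comap_iff] at hx

/-- **The Atkin–Lehner involution `w_p` of `F̄_{M'p}`** (as an algebra endomorphism). -/
def alHom : FF (M' * p) →ₐ[Kbar] FF (M' * p) :=
  (WpAlg M' p hp hpM).codRestrict (modularFunctionFieldBar (M' * p)).toSubalgebra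
    (Wp_mem M' p hp hpM)

@[simp] theorem coe_alHom (x : FF (M' * p)) :
    ((alHom M' p hp hpM x : FF (M' * p)) : LaurentSeries Kbar) = Wp M' p hp hpM x := rfl

theorem alHom_alpha (f : FF M') :
    alHom M' p hp hpM (heckeAlphaBar Kbar M' p f) = heckeBetaBar Kbar M' p f := by
  apply Subtype.ext
  rw [coe_alHom, Wp_alpha, coe_heckeBetaBar]

theorem alHom_beta (h : FF M') :
    alHom M' p hp hpM (heckeBetaBar Kbar M' p h) = heckeAlphaBar Kbar M' p h := by
  apply Subtype.ext
  rw [coe_alHom, Wp_beta, coe_heckeAlphaBar]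

/-- `w_p` is an involution. -/
theorem alHom_comp_alHom :
    (alHom M' p hp hpM).comp (alHom M' p hp hpM) = AlgHom.id Kbar (FF (M' * p)) := by
  apply Fermat.Agent.ES.N34.FrickeFK8.algHom_ext_jdF
  intro d' _ hd'
  rw [AlgHom.comp_apply, AlgHom.id_apply]
  rcases dvd_mul_prime_cases M' p hp hd' with hdM | ⟨d, hdM, rfl⟩
  · rw [← alpha_jdF M' p d' hdM hd', alHom_alpha, alHom_beta]
  · have hd0 : NeZero d := ⟨fun h0 => NeZero.ne (d * p) (by rw [h0, zero_mul])⟩
    rw [← beta_jdF M' p d hdM hd', alHom_beta, alHom_alpha]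

theorem alHom_alHom (x : FF (M' * p)) : alHom M' p hp hpM (alHom M' p hp hpM x) = x :=
  DFunLike.congr_fun (alHom_comp_alHom M' p hp hpM) x

/-- **`w_p` as an algebra automorphism of `F̄_{M'p}`.** -/
def alBar : FF (M' * p) ≃ₐ[Kbar] FF (M' * p) :=
  AlgEquiv.ofAlgHom (alHom M' p hp hpM) (alHom M' p hp hpM) (alHom_comp_alHom M' p hp hpM)
    (alHom_comp_alHom M' p hp hpM)

@[simp] theorem coe_alBar (x : FF (M' * p)) :
    ((alBar M' p hp hpM x : FF (M' * p)) : LaurentSeries Kbar) = Wp M' p hp hpM x := rfl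

theorem alBar_alpha (f : FF M') :
    alBar M' p hp hpM (heckeAlphaBar Kbar M' p f) = heckeBetaBar Kbar M' p f :=
  alHom_alpha M' p hp hpM f

theorem alBar_beta (h : FF M') :
    alBar M' p hp hpM (heckeBetaBar Kbar M' p h) = heckeAlphaBar Kbar M' p h :=
  alHom_beta M' p hp hpM h

theorem alBar_alBar (x : FF (M' * p)) : alBar M' p hp hpM (alBar M' p hp hpM x) = x :=
  alHom_alHom M' p hp hpM x

theorem alBar_symm_apply (x : FF (M' * p)) :
    (alBar M' p hp hpM).symm x = alBar M' p hp hpM x := by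
  rw [AlgEquiv.symm_apply_eq, alBar_alBar]

/-! ### Gauss normalisability and Galois equivariance -/

open Fermat.Agent.T1B.Hecke3 Fermat.Agent.T1B.Gauss95

/-- `W_p x` is Gauss-normalisable at every valuation subring of `ℚ̄`. -/
theorem normalisable_Wp (A : ValuationSubring Kbar) (x : FF (M' * p)) (h0 : x ≠ 0) :
    Hecke3.Normalisable A (Wp M' p hp hpM x) :=
  normalisable_of_mem_Fbar' A (M' * p) (Wp_mem M' p hp hpM x)
    (fun h => h0 (Wp_injective M' p hp hpM (h.trans (map_zero _).symm)))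

/-- **`W_p` is rational**: it commutes with the coefficientwise Galois action. -/
theorem Wp_arithmeticRingAut (σ : Kbar ≃ₐ[ℚ] Kbar) (x : FF (M' * p)) :
    Wp M' p hp hpM (arithmeticRingAut (modularFunctionFieldFull (M' * p)) σ x) =
      coeffMap (σ : Kbar →+* Kbar) (Wp M' p hp hpM x) := by
  have key : (Wp M' p hp hpM).comp
        (arithmeticRingAut (modularFunctionFieldFull (M' * p)) σ : FF (M' * p) →+* FF (M' * p)) =
      (coeffMap (σ : Kbar →+* Kbar)).comp (Wp M' p hp hpM) := by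
    apply CuspEquiv.ringHom_ext_Rsub
    intro r
    induction r using FracR.Rsub_induction with
    | hgen d' hd' =>
        have hfix : ∀ (a : ℕ) [NeZero a] (ha : a ∣ M' * p),
            arithmeticRingAut (modularFunctionFieldFull (M' * p)) σ (jdF (M' * p) a ha) =
              jdF (M' * p) a ha := by
          intro a _ ha
          apply Subtype.ext
          rw [coe_arithmeticRingAut_apply, coe_jdF_eq, Fermat.Agent.X0.CuspGood.coeffMap_qExpand]
          congr 1
          exact coeffMap_coeffEmb σ jq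
        have hcoe : ∀ (a : ℕ) [NeZero a] (ha : a ∣ M' * p),
            coeffMap (σ : Kbar →+* Kbar)
              ((jdF (M' * p) a ha : FF (M' * p)) : LaurentSeries Kbar) =
              ((jdF (M' * p) a ha : FF (M' * p)) : LaurentSeries Kbar) := by
          intro a _ ha
          have := congrArg (fun y : FF (M' * p) => (y : LaurentSeries Kbar)) (hfix a ha)
          simpa using this
        rw [RingHom.comp_apply, RingHom.comp_apply, FracR.coe_jdR]
        show Wp M' p hp hpM
            (arithmeticRingAut (modularFunctionFieldFull (M' * p)) σ (jdF (M' * p) d' hd')) = _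
        rw [hfix d' hd']
        rcases dvd_mul_prime_cases M' p hp hd' with hdM | ⟨d, hdM, rfl⟩
        · rw [Wp_jdF_of_dvd M' p hp hpM d' hdM hd' (Nat.mul_dvd_mul_right hdM p), hcoe]
        · have hd0 : NeZero d := ⟨fun h0 => NeZero.ne (d * p) (by rw [h0, zero_mul])⟩
          rw [Wp_jdF_mul M' p hp hpM d hdM (Dvd.dvd.mul_right hdM p) hd', hcoe]
    | hconst c =>
        rw [RingHom.comp_apply, RingHom.comp_apply]
        show Wp M' p hp hpM (arithmeticRingAut (modularFunctionFieldFull (M' * p)) σ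
            (algebraMap Kbar (FF (M' * p)) c)) =
          coeffMap (σ : Kbar →+* Kbar) (Wp M' p hp hpM (algebraMap Kbar (FF (M' * p)) c))
        rw [arithmeticRingAut_algebraMap, Wp_const, Wp_const, coeffMap_C']
        rfl
    | hadd a b ha hb =>
        rw [Subalgebra.coe_add, map_add, map_add, ha, hb]
    | hmul a b ha hb =>
        rw [Subalgebra.coe_mul, map_mul, map_mul, ha, hb]
  exact congrArg (fun φ : FF (M' * p) →+* LaurentSeries Kbar => φ x) key

/-- `dl` of the side-2 expansion is equivariant for the decomposition group. -/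
theorem dl_galois_Wp (A : ValuationSubring Kbar) (g : A.decompositionSubgroup ℚ)
    (x : FF (M' * p)) (h0 : x ≠ 0) :
    dl A (Wp M' p hp hpM
        (arithmeticRingAut (modularFunctionFieldFull (M' * p)) (g : Kbar ≃ₐ[ℚ] Kbar) x)) =
      galBar g (dl A (Wp M' p hp hpM x)) := by
  rw [Wp_arithmeticRingAut]
  exact dl_galois g (normalisable_Wp M' p hp hpM A x h0)

end Fermat.Agent.T1B.ALP95
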